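/-
S20, package A0 (helper69): the `P¹(ℤ/N)` model of `SL(2,ℤ) ⧸ Γ₀(N)`.

The left coset `g Γ₀(N)` is determined by the first column of `g` modulo `N`, up to a unit of
`ZMod N`; every unimodular vector modulo `N` occurs.
-/
import Mathlib

set_option autoImplicit false

namespace Fermat.Agent.S20.H69

open scoped MatrixGroups
open CongruenceSubgroup Matrix

/-! ### Unimodular vectors over a commutative ring -/

section Ring

variable {R : Type*} [CommRing R]

/-- Two unimodular vectors with vanishing cross product differ by a unit. -/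
lemma exists_unit_of_cross_eq {a c a' c' : R} (h : IsCoprime a c) (h' : IsCoprime a' c')
    (hx : a * c' = c * a') : ∃ u : Rˣ, a' = u * a ∧ c' = u * c := by
  obtain ⟨x, y, hxy⟩ := h
  obtain ⟨x', y', hxy'⟩ := h'
  have h1 : (x * a' + y * c') * (x' * a + y' * c) = 1 := by
    linear_combination (x' * a' + y' * c') * hxy + hxy' + (x' * y - x * y') * hx
  refine ⟨⟨x * a' + y * c', x' * a + y' * c, h1, by rw [mul_comm]; exact h1⟩, ?_, ?_⟩
  · show a' = (x * a' + y * c') * a
    linear_combination (-a') * hxy - y * hx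
  · show c' = (x * a' + y * c') * c
    linear_combination (-c') * hxy + x * hx

/-- The action of units on unimodular vectors is free. -/
lemma unit_eq_of_smul_eq {a c : R} (h : IsCoprime a c) {u v : Rˣ}
    (ha : (u : R) * a = v * a) (hc : (u : R) * c = v * c) : u = v := by
  obtain ⟨x, y, hxy⟩ := h
  ext
  linear_combination (↑v - ↑u : R) * hxy + x * ha + y * hc

end Ring

/-! ### Lifting unimodular vectors from `ZMod N` to `ℤ` -/

lemma exists_isCoprime_lift {N : ℕ} (hN : N ≠ 0) {a c : ZMod N} (h : IsCoprime a c) :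
    ∃ a' c' : ℤ, IsCoprime a' c' ∧ (a' : ZMod N) = a ∧ (c' : ZMod N) = c := by
  have : NeZero N := ⟨hN⟩
  obtain ⟨x, y, hxy⟩ := h
  set a₀ : ℤ := (a.val : ℤ) with ha₀def
  have ha₀ : (a₀ : ZMod N) = a := by simp [a₀]
  set c₀ : ℤ := if c.val = 0 then (N : ℤ) else (c.val : ℤ) with hc₀def
  have hc₀ : (c₀ : ZMod N) = c := by
    by_cases hc : c.val = 0
    · have : c = 0 := (ZMod.val_eq_zero c).mp hc
      simp [c₀, this]
    · simp [c₀, hc]
  have hc₀ne : c₀ ≠ 0 := by
    by_cases hc : c.val = 0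
    · simp only [c₀, hc, if_true]; exact_mod_cast hN
    · simp only [c₀, hc, if_false]; exact_mod_cast hc
  -- no prime divides `a₀`, `c₀` and `N`
  have hkey : ∀ p : ℤ, Prime p → p ∣ a₀ → p ∣ c₀ → p ∣ (N : ℤ) → False := by
    intro p hp hpa hpc hpN
    have h1 : ((N : ℤ)) ∣ (x.val : ℤ) * a₀ + (y.val : ℤ) * c₀ - 1 := by
      rw [← ZMod.intCast_zmod_eq_zero_iff_dvd]
      push_cast
      rw [ha₀, hc₀, ZMod.natCast_zmod_val, ZMod.natCast_zmod_val, hxy, sub_self]
    have h2 : p ∣ (x.val : ℤ) * a₀ + (y.val : ℤ) * c₀ - 1 := hpN.trans h1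
    have h3 : p ∣ (x.val : ℤ) * a₀ + (y.val : ℤ) * c₀ :=
      dvd_add (Dvd.dvd.mul_left hpa _) (Dvd.dvd.mul_left hpc _)
    have h4 : p ∣ 1 := by
      have := dvd_sub h3 h2
      simpa using this
    exact hp.not_dvd_one h4
  set t : ℤ := ∏ q ∈ c₀.natAbs.primeFactors.filter (fun q : ℕ => ¬ (q : ℤ) ∣ a₀), (q : ℤ) with ht
  refine ⟨a₀ + t * N, c₀, ?_, by simp [ha₀], hc₀⟩
  apply isCoprime_of_prime_dvd
  · rintro ⟨-, h0⟩; exact hc₀ne h0
  · intro p hp hpa hpc
    have hq : (p.natAbs).Prime := Int.prime_iff_natAbs_prime.mp hp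
    by_cases hpa₀ : p ∣ a₀
    · -- then `p ∣ t * N` and `p ∤ t`, so `p ∣ N`
      have h1 : p ∣ t * N := by
        have := dvd_sub hpa hpa₀
        simpa using this
      rcases hp.dvd_or_dvd h1 with h2 | h2
      · rw [ht, Prime.dvd_finsetProd_iff hp] at h2
        obtain ⟨q, hqmem, hpq⟩ := h2
        rw [Finset.mem_filter, Nat.mem_primeFactors] at hqmem
        have hqp : Prime (q : ℤ) := Nat.prime_iff_prime_int.mp hqmem.1.1
        have hass : Associated p (q : ℤ) := hp.associated_of_dvd hqp hpq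
        exact hqmem.2 (hass.symm.dvd.trans hpa₀)
      · exact hkey p hp hpa₀ hpc h2
    · -- then `p ∣ t`
      have hmem : p.natAbs ∈ c₀.natAbs.primeFactors.filter (fun q : ℕ => ¬ (q : ℤ) ∣ a₀) := by
        rw [Finset.mem_filter, Nat.mem_primeFactors]
        refine ⟨⟨hq, Int.natAbs_dvd_natAbs.mpr hpc, Int.natAbs_ne_zero.mpr hc₀ne⟩, ?_⟩
        rwa [Int.natAbs_dvd]
      have h1 : (p.natAbs : ℤ) ∣ t := Finset.dvd_prod_of_mem _ hmem
      have h2 : p ∣ t := (Int.dvd_natAbs.mpr dvd_rfl).trans h1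
      apply hpa₀
      have := dvd_sub hpa (Dvd.dvd.mul_right h2 (N : ℤ))
      simpa using this

/-! ### The first column map -/

variable (N : ℕ)

/-- The first column of `g`, reduced modulo `N`. -/
def col (g : SL(2, ℤ)) : ZMod N × ZMod N := (((g 0 0 : ℤ) : ZMod N), ((g 1 0 : ℤ) : ZMod N))

lemma col_isCoprime (g : SL(2, ℤ)) : IsCoprime (col N g).1 (col N g).2 := by
  refine ⟨((g 1 1 : ℤ) : ZMod N), -((g 0 1 : ℤ) : ZMod N), ?_⟩
  have h := g.det_coe
  rw [Matrix.det_fin_two] at h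
  have h' := congrArg (Int.cast : ℤ → ZMod N) h
  push_cast at h'
  simp only [col]
  linear_combination h'

lemma col_mul (h g : SL(2, ℤ)) :
    col N (h * g) = (((h 0 0 : ℤ) : ZMod N) * (col N g).1 + ((h 0 1 : ℤ) : ZMod N) * (col N g).2,
      ((h 1 0 : ℤ) : ZMod N) * (col N g).1 + ((h 1 1 : ℤ) : ZMod N) * (col N g).2) := by
  simp only [col, Matrix.SpecialLinearGroup.coe_mul, Matrix.mul_apply, Fin.sum_univ_two]
  push_cast
  rfl

/-- Membership of `g⁻¹ * g'` in `Γ₀(N)` is the vanishing of the cross product of the first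
columns. -/
lemma inv_mul_mem_Gamma0_iff (g g' : SL(2, ℤ)) :
    g⁻¹ * g' ∈ Gamma0 N ↔ (col N g).1 * (col N g').2 = (col N g).2 * (col N g').1 := by
  rw [Gamma0_mem]
  have : ((g⁻¹ * g' : SL(2, ℤ)) 1 0 : ℤ) = g 0 0 * g' 1 0 - g 1 0 * g' 0 0 := by
    simp only [Matrix.SpecialLinearGroup.coe_mul, Matrix.SpecialLinearGroup.coe_inv,
      Matrix.adjugate_fin_two, Matrix.mul_apply, Fin.sum_univ_two, Matrix.of_apply,
      Matrix.cons_val_zero, Matrix.cons_val_one]
    ring
  rw [this]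
  simp only [col]
  push_cast
  rw [sub_eq_zero]

/-- Two elements of `SL(2,ℤ)` lie in the same left coset of `Γ₀(N)` iff their first columns modulo
`N` differ by a unit. -/
lemma inv_mul_mem_Gamma0_iff_exists_unit (g g' : SL(2, ℤ)) :
    g⁻¹ * g' ∈ Gamma0 N ↔
      ∃ u : (ZMod N)ˣ, (col N g').1 = u * (col N g).1 ∧ (col N g').2 = u * (col N g).2 := by
  rw [inv_mul_mem_Gamma0_iff]
  constructor
  · intro h
    exact exists_unit_of_cross_eq (col_isCoprime N g) (col_isCoprime N g') h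
  · rintro ⟨u, h1, h2⟩
    rw [h1, h2]; ring

/-- Every unimodular vector modulo `N` is the first column of an element of `SL(2,ℤ)`. -/
lemma exists_col_eq {N : ℕ} (hN : N ≠ 0) {a c : ZMod N} (h : IsCoprime a c) :
    ∃ g : SL(2, ℤ), col N g = (a, c) := by
  obtain ⟨a', c', hcop, ha, hc⟩ := exists_isCoprime_lift hN h
  obtain ⟨g, hg0, hg1⟩ := hcop.exists_SL2_col 0
  exact ⟨g, by simp only [col, hg0, hg1, ha, hc]⟩

end Fermat.Agent.S20.H69
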