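/-
S20, package A1 (helper69): `[SL(2,ℤ) : Γ₀(N)] = ψ(N)` (Dedekind psi function).
-/
import Mathlib
import Fermat.Prelude.Def_ModularCurve_GenusNumerics
import Fermat.Agent.S20.H69.P1Model

set_option autoImplicit false

namespace Fermat.Agent.S20.H69

open scoped MatrixGroups
open CongruenceSubgroup Matrix

/-- Unimodular vectors of length two over a commutative ring. -/
def Unimod (R : Type*) [CommRing R] : Type _ := {v : R × R // IsCoprime v.1 v.2}

section UnimodGeneral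

variable {R S : Type*} [CommRing R] [CommRing S]

/-- Unimodular vectors are transported by ring isomorphisms. -/
def Unimod.congr (e : R ≃+* S) : Unimod R ≃ Unimod S where
  toFun v := ⟨(e v.1.1, e v.1.2), v.2.map e.toRingHom⟩
  invFun v := ⟨(e.symm v.1.1, e.symm v.1.2), v.2.map e.symm.toRingHom⟩
  left_inv v := by
    apply Subtype.ext
    simp
  right_inv v := by
    apply Subtype.ext
    simp

/-- Unimodular vectors over a product ring. -/
def Unimod.prodEquiv : Unimod (R × S) ≃ Unimod R × Unimod S where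
  toFun v := (⟨(v.1.1.1, v.1.2.1), v.2.map (RingHom.fst R S)⟩,
    ⟨(v.1.1.2, v.1.2.2), v.2.map (RingHom.snd R S)⟩)
  invFun w := ⟨((w.1.1.1, w.2.1.1), (w.1.1.2, w.2.1.2)), by
    obtain ⟨x, y, hxy⟩ := w.1.2
    obtain ⟨x', y', hxy'⟩ := w.2.2
    exact ⟨(x, x'), (y, y'), Prod.ext hxy hxy'⟩⟩
  left_inv v := rfl
  right_inv w := rfl

end UnimodGeneral

/-- The number of unimodular vectors is multiplicative. -/
lemma card_unimod_mul {m n : ℕ} (h : m.Coprime n) :
    Nat.card (Unimod (ZMod (m * n))) = Nat.card (Unimod (ZMod m)) * Nat.card (Unimod (ZMod n)) := by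
  rw [← Nat.card_prod]
  exact Nat.card_congr ((Unimod.congr (ZMod.chineseRemainder h)).trans Unimod.prodEquiv)

/-- `SL(2,ℤ) ⧸ Γ₀(N)` times the units of `ZMod N` is in bijection with the unimodular vectors
modulo `N`. -/
lemma card_quotient_mul_totient (N : ℕ) [NeZero N] :
    Nat.card (SL(2, ℤ) ⧸ Gamma0 N) * Nat.totient N = Nat.card (Unimod (ZMod N)) := by
  have hφ : Nat.totient N = Nat.card (ZMod N)ˣ := by
    rw [Nat.card_eq_fintype_card, ZMod.card_units_eq_totient]
  rw [hφ, ← Nat.card_prod]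
  let f : (SL(2, ℤ) ⧸ Gamma0 N) × (ZMod N)ˣ → Unimod (ZMod N) := fun x =>
    ⟨((x.2 : ZMod N) * (col N x.1.out).1, (x.2 : ZMod N) * (col N x.1.out).2),
      ((isCoprime_mul_unit_left_left x.2.isUnit _ _).mpr
        ((isCoprime_mul_unit_left_right x.2.isUnit _ _).mpr (col_isCoprime N x.1.out)))⟩
  refine Nat.card_eq_of_bijective f ⟨?_, ?_⟩
  · rintro ⟨q, u⟩ ⟨q', u'⟩ hqq'
    have h1 : (u : ZMod N) * (col N q.out).1 = u' * (col N q'.out).1 :=
      congrArg (fun v : Unimod (ZMod N) => v.1.1) hqq'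
    have h2 : (u : ZMod N) * (col N q.out).2 = u' * (col N q'.out).2 :=
      congrArg (fun v : Unimod (ZMod N) => v.1.2) hqq'
    have hmem : (q.out)⁻¹ * q'.out ∈ Gamma0 N := by
      rw [inv_mul_mem_Gamma0_iff_exists_unit]
      refine ⟨u'⁻¹ * u, ?_, ?_⟩
      · rw [Units.val_mul, mul_assoc, h1, ← mul_assoc, Units.inv_mul, one_mul]
      · rw [Units.val_mul, mul_assoc, h2, ← mul_assoc, Units.inv_mul, one_mul]
    have hq : q = q' := by
      rw [← QuotientGroup.out_eq' q, ← QuotientGroup.out_eq' q']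
      exact QuotientGroup.eq.mpr hmem
    subst hq
    have hu : u = u' := unit_eq_of_smul_eq (col_isCoprime N q.out) h1 h2
    rw [hu]
  · rintro ⟨⟨a, c⟩, hac⟩
    obtain ⟨g, hg⟩ := exists_col_eq (NeZero.ne N) hac
    have hmem : ((g : SL(2, ℤ) ⧸ Gamma0 N).out)⁻¹ * g ∈ Gamma0 N :=
      QuotientGroup.eq.mp (QuotientGroup.out_eq' _)
    rw [inv_mul_mem_Gamma0_iff_exists_unit] at hmem
    obtain ⟨u, hu1, hu2⟩ := hmem
    refine ⟨((g : SL(2, ℤ) ⧸ Gamma0 N), u), ?_⟩
    apply Subtype.ext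
    show ((u : ZMod N) * (col N (g : SL(2, ℤ) ⧸ Gamma0 N).out).1,
      (u : ZMod N) * (col N (g : SL(2, ℤ) ⧸ Gamma0 N).out).2) = (a, c)
    rw [← hu1, ← hu2, hg]

/-! ### Prime powers -/

lemma castHom_eq_zero_of_not_isUnit {p k : ℕ} (hp : p.Prime) {a : ZMod (p ^ (k + 1))}
    (ha : ¬ IsUnit a) :
    ZMod.castHom (dvd_pow_self p (Nat.succ_ne_zero k)) (ZMod p) a = 0 := by
  have : NeZero (p ^ (k + 1)) := ⟨pow_ne_zero _ hp.ne_zero⟩
  rw [ZMod.castHom_apply, ← ZMod.natCast_val, ZMod.natCast_eq_zero_iff]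
  by_contra hdvd
  apply ha
  rw [← ZMod.natCast_zmod_val a, ZMod.isUnit_iff_coprime,
    Nat.coprime_pow_right_iff (Nat.succ_pos k), Nat.coprime_comm, hp.coprime_iff_not_dvd]
  exact hdvd

/-- In `ZMod (p ^ (k + 1))` a pair is unimodular iff one of its entries is a unit. -/
lemma isCoprime_iff_isUnit_or {p k : ℕ} (hp : p.Prime) (a c : ZMod (p ^ (k + 1))) :
    IsCoprime a c ↔ IsUnit a ∨ IsUnit c := by
  have : Fact p.Prime := ⟨hp⟩
  constructor
  · rintro ⟨x, y, hxy⟩
    by_contra hcon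
    rw [not_or] at hcon
    have h := congrArg (ZMod.castHom (dvd_pow_self p (Nat.succ_ne_zero k)) (ZMod p)) hxy
    rw [map_add, map_mul, map_mul, castHom_eq_zero_of_not_isUnit hp hcon.1,
      castHom_eq_zero_of_not_isUnit hp hcon.2, map_one, mul_zero, mul_zero, add_zero] at h
    exact zero_ne_one h
  · rintro (⟨u, rfl⟩ | ⟨u, rfl⟩)
    · exact ⟨((u⁻¹ : (ZMod (p ^ (k + 1)))ˣ) : ZMod (p ^ (k + 1))), 0, by simp⟩
    · exact ⟨0, ((u⁻¹ : (ZMod (p ^ (k + 1)))ˣ) : ZMod (p ^ (k + 1))), by simp⟩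

lemma card_not_isUnit_prime_pow {p k : ℕ} (hp : p.Prime) :
    Nat.card {a : ZMod (p ^ (k + 1)) // ¬ IsUnit a} = p ^ k := by
  have : NeZero (p ^ (k + 1)) := ⟨pow_ne_zero _ hp.ne_zero⟩
  have h1 : Nat.card {a : ZMod (p ^ (k + 1)) // IsUnit a} = Nat.totient (p ^ (k + 1)) := by
    rw [← ZMod.card_units_eq_totient (p ^ (k + 1)), ← Nat.card_eq_fintype_card]
    exact Nat.card_congr
      { toFun := fun a => IsUnit.unit a.2
        invFun := fun u => ⟨u, u.isUnit⟩
        left_inv := fun a => Subtype.ext (IsUnit.unit_spec a.2)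
        right_inv := fun u => Units.ext rfl }
  have h2 : Nat.card {a : ZMod (p ^ (k + 1)) // IsUnit a} +
      Nat.card {a : ZMod (p ^ (k + 1)) // ¬ IsUnit a} = p ^ (k + 1) := by
    classical
    rw [← Nat.card_sum, Nat.card_congr (Equiv.sumCompl _), Nat.card_zmod]
  rw [h1, Nat.totient_prime_pow_succ hp] at h2
  obtain ⟨m, rfl⟩ : ∃ m, p = m + 1 := ⟨p - 1, (Nat.sub_add_cancel hp.pos).symm⟩
  simp only [Nat.add_sub_cancel] at h2
  have h3 : (m + 1) ^ (k + 1) = (m + 1) ^ k * m + (m + 1) ^ k := by ring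
  omega

lemma card_unimod_prime_pow {p k : ℕ} (hp : p.Prime) :
    Nat.card (Unimod (ZMod (p ^ (k + 1)))) + (p ^ k) ^ 2 = (p ^ (k + 1)) ^ 2 := by
  have : NeZero (p ^ (k + 1)) := ⟨pow_ne_zero _ hp.ne_zero⟩
  have e : {v : ZMod (p ^ (k + 1)) × ZMod (p ^ (k + 1)) // ¬ IsCoprime v.1 v.2} ≃
      {a : ZMod (p ^ (k + 1)) // ¬ IsUnit a} × {c : ZMod (p ^ (k + 1)) // ¬ IsUnit c} :=
    (Equiv.subtypeEquivRight (fun v => by rw [isCoprime_iff_isUnit_or hp, not_or])).trans
      Equiv.subtypeProdEquivProd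
  classical
  have h := Nat.card_congr (Equiv.sumCompl
    (fun v : ZMod (p ^ (k + 1)) × ZMod (p ^ (k + 1)) => IsCoprime v.1 v.2))
  rw [Nat.card_sum, Nat.card_congr e, Nat.card_prod, card_not_isUnit_prime_pow hp, Nat.card_prod,
    Nat.card_zmod] at h
  rw [sq, sq]
  exact h

/-! ### The Dedekind psi function -/

/-- The indicator function of squarefree numbers. -/
def sqfInd : ArithmeticFunction ℕ := ⟨fun n => if Squarefree n then 1 else 0, by simp⟩

lemma sqfInd_apply (n : ℕ) : sqfInd n = if Squarefree n then 1 else 0 := rfl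

lemma sqfInd_isMultiplicative : sqfInd.IsMultiplicative := by
  refine ⟨by simp [sqfInd_apply], ?_⟩
  intro m n h
  simp only [sqfInd_apply, Nat.squarefree_mul h]
  by_cases hm : Squarefree m <;> by_cases hn : Squarefree n <;> simp [hm, hn]

lemma dedekindPsi_eq (N : ℕ) :
    ModularCurve.dedekindPsi N = (sqfInd * ArithmeticFunction.id) N := by
  rw [ArithmeticFunction.mul_apply,
    Nat.sum_divisorsAntidiagonal (f := fun a b => sqfInd a * ArithmeticFunction.id b)]
  simp [ModularCurve.dedekindPsi, Finset.sum_filter, sqfInd_apply]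

lemma dedekindPsi_mul {m n : ℕ} (h : m.Coprime n) :
    ModularCurve.dedekindPsi (m * n) = ModularCurve.dedekindPsi m * ModularCurve.dedekindPsi n := by
  rw [dedekindPsi_eq, dedekindPsi_eq, dedekindPsi_eq]
  exact (sqfInd_isMultiplicative.mul ArithmeticFunction.isMultiplicative_id).map_mul_of_coprime h

lemma dedekindPsi_prime_pow {p k : ℕ} (hp : p.Prime) :
    ModularCurve.dedekindPsi (p ^ (k + 1)) = p ^ (k + 1) + p ^ k := by
  rw [ModularCurve.dedekindPsi, Nat.divisors_prime_pow hp, Finset.sum_filter, Finset.sum_map,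
    Finset.sum_range_succ', Finset.sum_range_succ']
  have h0 : ∀ i ∈ Finset.range k, (if Squarefree (p ^ (i + 1 + 1)) then
      p ^ (k + 1) / p ^ (i + 1 + 1) else 0) = 0 := by
    intro i _
    rw [if_neg]
    rw [Nat.squarefree_pow_iff hp.ne_one (by omega)]
    omega
  simp only [Function.Embedding.coeFn_mk]
  rw [Finset.sum_eq_zero h0, zero_add, zero_add, pow_one, pow_zero, if_pos hp.squarefree,
    if_pos squarefree_one, Nat.div_one, pow_succ, Nat.mul_div_cancel _ hp.pos, add_comm]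

/-! ### The index formula -/

lemma card_unimod_eq (N : ℕ) (hN : N ≠ 0) :
    Nat.card (Unimod (ZMod N)) = ModularCurve.dedekindPsi N * Nat.totient N := by
  induction N using Nat.recOnPosPrimePosCoprime with
  | prime_pow p n hp hn =>
    obtain ⟨k, rfl⟩ := Nat.exists_eq_succ_of_ne_zero hn.ne'
    have h1 := card_unimod_prime_pow (k := k) hp
    rw [dedekindPsi_prime_pow hp, Nat.totient_prime_pow_succ hp]
    have h2 : (p ^ (k + 1) + p ^ k) * (p ^ k * (p - 1)) + (p ^ k) ^ 2 = (p ^ (k + 1)) ^ 2 := by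
      obtain ⟨m, rfl⟩ : ∃ m, p = m + 1 := ⟨p - 1, (Nat.sub_add_cancel hp.pos).symm⟩
      simp only [Nat.add_sub_cancel]
      ring
    exact Nat.add_right_cancel (h1.trans h2.symm)
  | zero => exact absurd rfl hN
  | one =>
    rw [ModularCurve.dedekindPsi_one, Nat.totient_one, mul_one, Nat.card_eq_one_iff_unique]
    refine ⟨⟨fun v w => Subtype.ext (Subsingleton.elim _ _)⟩, ⟨⟨(0, 0), ?_⟩⟩⟩
    exact ⟨0, 0, Subsingleton.elim _ _⟩
  | coprime a b ha hb hab iha ihb =>
    rw [card_unimod_mul hab, iha (by omega), ihb (by omega), dedekindPsi_mul hab,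
      Nat.totient_mul hab]
    ring

/-- **A1.** The index of `Γ₀(N)` in `SL(2,ℤ)` is the Dedekind psi function of `N`. -/
theorem card_quotient_Gamma0 (N : ℕ) [NeZero N] :
    Nat.card (SL(2, ℤ) ⧸ Gamma0 N) = ModularCurve.dedekindPsi N := by
  have h1 := card_quotient_mul_totient N
  rw [card_unimod_eq N (NeZero.ne N)] at h1
  exact Nat.eq_of_mul_eq_mul_right (Nat.totient_pos.mpr (NeZero.pos N)) h1

/-- **A1.** The index of `Γ₀(N)` in `SL(2,ℤ)` is the Dedekind psi function of `N`. -/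
theorem index_Gamma0 (N : ℕ) [NeZero N] : (Gamma0 N).index = ModularCurve.dedekindPsi N :=
  card_quotient_Gamma0 N

end Fermat.Agent.S20.H69
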